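/-
Project S35 (SS2), cell [DESC-U] (helper22): THE FUNCTION-FIELD HALF OF THE UNRAMIFIED DESCENT,
instance `X₀(N)`.

* `DescU/Stable.lean`  (D1)  : a class of `Pic⁰` fixed by a set `S` of semilinear automorphisms
                               fixing a place contains an `S`-stable divisor
                               (`ss2_du_exists_stable_rep`);
* `DescU/Kummer.lean`  (D1') : its Kummer form (`ss2_du_kummer_stable`);
* `DescU/Fixed.lean`   (D2a) : the fixed field of `Gal(Q̄/L1)` in `F_Q̄` is `F_{L1}`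
                               (`ss2_du_fixed_mem_range`);
* `DescU/Descend.lean` (D2)  : `ss2_du_descend` (generic `F₀ ⊆ ℚ((q))`);
* here                       : `ss2_du_descend_X0`, the instance `F₀ = modularFunctionFieldFull N`
                               (`x = j`, `Pinf = ` the cusp `∞`).
Prefix `ss2_du_`.
-/
import Mathlib
import Fermat.Agent.SS2.DescU.Descend
import Fermat.Agent.JT3.Riemann.FBar
import Fermat.Agent.MW.Inf
import Fermat.Agent.MW.Ref

set_option autoImplicit false
set_option linter.unusedSectionVars false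

noncomputable section

namespace Fermat.Agent.SS2

open ModularCurve AlgebraicCurve Fermat.Agent.JT3 Fermat.Agent.S24 Fermat.Agent.SS
  Fermat.Agent.MW IntermediateField Polynomial

local notation "Qb" => AlgebraicClosure ℚ

/-- **[DESC-U], function-field half, for `X₀(N)`.**  Let `L1 → Q̄` be a subfield, `m ≥ 1` and
`f ∈ Q̄(X₀(N))ˣ` with all orders divisible by `m`, such that for every `τ ∈ G_ℚ` fixing `L1`
pointwise `τ f = c_τ · r_τ^m · f` (the class of `div(f)/m` in `J₀(N)[m]` is fixed by `Gal(Q̄/L1)`).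
Then `f = c · r^m · bc(g1)` with `g1 ∈ L1(X₀(N))ˣ` all of whose orders (at the places of
`L1(X₀(N)) / L1`) are divisible by `m`. -/
theorem ss2_du_descend_X0 (N : ℕ) [NeZero N]
    (L1 : Type) [Field L1] [Algebra ℚ L1] [Algebra L1 Qb] [IsScalarTower ℚ L1 Qb]
    {m : ℕ} (hm : m ≠ 0) {f : modularFunctionFieldBar N} (hf : f ≠ 0)
    (hord : ∀ v : Place Qb (modularFunctionFieldBar N), (m : ℤ) ∣ v.ord f)
    (hfix : ∀ τ : Qb ≃ₐ[ℚ] Qb, (∀ a : L1, τ (algebraMap L1 Qb a) = algebraMap L1 Qb a) →
      ∃ (c : Qb) (r : modularFunctionFieldBar N), c ≠ 0 ∧ r ≠ 0 ∧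
        arithmeticGalois (modularFunctionFieldFull N) τ • f =
          algebraMap Qb (modularFunctionFieldBar N) c * r ^ m * f) :
    ∃ (g1 : laurentBaseChange L1 (modularFunctionFieldFull N)) (c : Qb)
      (r : modularFunctionFieldBar N), g1 ≠ 0 ∧ c ≠ 0 ∧ r ≠ 0 ∧
      f = algebraMap Qb (modularFunctionFieldBar N) c * r ^ m *
        dsc_bcHom L1 Qb (modularFunctionFieldFull N) g1 ∧
      ∀ w : Place L1 (laurentBaseChange L1 (modularFunctionFieldFull N)), (m : ℤ) ∣ w.ord g1 :=
  ss2_du_descend (rt_isSepGen_jBar N) (mw_inf_place N)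
    (fun τ => mw_ref_smul_inf N τ (mw_inf_place N) (mw_inf_isInf N)) L1 hm hf hord hfix

end Fermat.Agent.SS2
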